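import Fermat.Agent.JEb.Glue
import Fermat.Agent.JE.ToLD

set_option autoImplicit false

/-! S25, block E (E-b): every line datum comes from an invertible module on `C_B`. -/

universe u

open CategoryTheory CategoryTheory.Limits AlgebraicGeometry TopologicalSpace Opposite
open NeronModelInfra AlgebraicGeometry.RelPicard
open scoped TensorProduct

namespace Fermat.Agent.JEb

section Glue

variable {X : Scheme.{u}}

/-- `exists_glue` with a name for the intersection -/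
theorem exists_glue' {U V W : X.Opens} (hU : IsAffineOpen U) (hV : IsAffineOpen V)
    (hW : W = U ⊓ V) (hWU : W ≤ U) (hWV : W ≤ V)
    (hUV : U ⊔ V = ⊤) (t : Γ(X, U)) (ht : W = X.basicOpen t) (t' : Γ(X, V))
    (ht' : W = X.basicOpen t')
    (M0 M1 M : Type u) [AddCommGroup M0] [AddCommGroup M1] [AddCommGroup M]
    [Module Γ(X, U) M0] [Module Γ(X, V) M1] [Module Γ(X, W) M]
    [Module.Invertible Γ(X, U) M0] [Module.Invertible Γ(X, V) M1]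
    (j0 : M0 →+ M) (j1 : M1 →+ M)
    (hj0 : ∀ (r : Γ(X, U)) (m : M0), j0 (r • m) = JE.ro hWU r • j0 m)
    (hj1 : ∀ (r : Γ(X, V)) (m : M1), j1 (r • m) = JE.ro hWV r • j1 m)
    (hs0 : ∀ m : M, ∃ (k : ℕ) (m0 : M0), JE.ro hWU (t ^ k) • m = j0 m0)
    (hs1 : ∀ m : M, ∃ (k : ℕ) (m1 : M1), JE.ro hWV (t' ^ k) • m = j1 m1)
    (hi0 : ∀ m : M0, j0 m = 0 → ∃ k : ℕ, t ^ k • m = 0)
    (hi1 : ∀ m : M1, j1 m = 0 → ∃ k : ℕ, t' ^ k • m = 0) :
    ∃ 𝓜 : X.Modules, JE.LocFree 𝓜 ⊤ ∧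
      ∃ (e0 : Γ(𝓜, U) ≃ₗ[Γ(X, U)] M0) (e1 : Γ(𝓜, V) ≃ₗ[Γ(X, V)] M1)
        (e : Γ(𝓜, W) ≃ₗ[Γ(X, W)] M),
        (∀ s : Γ(𝓜, U), j0 (e0 s) = e (JE.rs 𝓜 hWU s)) ∧
        (∀ s : Γ(𝓜, V), j1 (e1 s) = e (JE.rs 𝓜 hWV s)) := by
  subst hW
  exact exists_glue hU hV hUV t ht.symm t' ht'.symm M0 M1 M j0 j1 hj0 hj1 hs0 hs1 hi0 hi1

/-- glueing, with rings isomorphic to the rings of sections -/
theorem exists_glue_ring {U V W : X.Opens} (hU : IsAffineOpen U) (hV : IsAffineOpen V)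
    (hW : W = U ⊓ V) (hWU : W ≤ U) (hWV : W ≤ V) (hUV : U ⊔ V = ⊤)
    {RA R0 R1 : Type u} [CommRing RA] [CommRing R0] [CommRing R1]
    (nA : RA →+* Γ(X, W)) (n0 : R0 →+* Γ(X, U)) (n1 : R1 →+* Γ(X, V))
    (bA : Function.Bijective nA) (b0 : Function.Bijective n0) (b1 : Function.Bijective n1)
    (i0 : R0 →+* RA) (i1 : R1 →+* RA)
    (r0 : ∀ s, JE.ro hWU (n0 s) = nA (i0 s)) (r1 : ∀ s, JE.ro hWV (n1 s) = nA (i1 s))
    (t : R0) (ht : W = X.basicOpen (n0 t)) (t' : R1) (ht' : W = X.basicOpen (n1 t'))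
    (M0 M1 M : Type u) [AddCommGroup M0] [AddCommGroup M1] [AddCommGroup M]
    [Module R0 M0] [Module R1 M1] [Module RA M]
    [Module.Invertible R0 M0] [Module.Invertible R1 M1]
    (j0 : M0 →+ M) (j1 : M1 →+ M)
    (hj0 : ∀ (r : R0) (m : M0), j0 (r • m) = i0 r • j0 m)
    (hj1 : ∀ (r : R1) (m : M1), j1 (r • m) = i1 r • j1 m)
    (hs0 : ∀ m : M, ∃ (k : ℕ) (m0 : M0), i0 (t ^ k) • m = j0 m0)
    (hs1 : ∀ m : M, ∃ (k : ℕ) (m1 : M1), i1 (t' ^ k) • m = j1 m1)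
    (hi0 : Function.Injective j0) (hi1 : Function.Injective j1) :
    ∃ 𝓜 : X.Modules, JE.LocFree 𝓜 ⊤ ∧
      ∃ (e0 : Γ(𝓜, U) ≃+ M0) (e1 : Γ(𝓜, V) ≃+ M1) (e : Γ(𝓜, W) ≃+ M),
        (∀ (r : RA) (s : Γ(𝓜, W)), e (nA r • s) = r • e s) ∧
        (∀ s : Γ(𝓜, U), j0 (e0 s) = e (JE.rs 𝓜 hWU s)) ∧
        (∀ s : Γ(𝓜, V), j1 (e1 s) = e (JE.rs 𝓜 hWV s)) := by
  let rA := RingEquiv.ofBijective nA bA
  let q0 := RingEquiv.ofBijective n0 b0
  let q1 := RingEquiv.ofBijective n1 b1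
  let _ : Module Γ(X, W) M := Module.compHom M rA.symm.toRingHom
  let _ : Module Γ(X, U) M0 := Module.compHom M0 q0.symm.toRingHom
  let _ : Module Γ(X, V) M1 := Module.compHom M1 q1.symm.toRingHom
  have sA : ∀ (r : RA) (m : M), nA r • m = r • m := fun r m => by
    show rA.symm (rA r) • m = r • m
    rw [RingEquiv.symm_apply_apply]
  have s0 : ∀ (r : R0) (m : M0), n0 r • m = r • m := fun r m => by
    show q0.symm (q0 r) • m = r • m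
    rw [RingEquiv.symm_apply_apply]
  have s1 : ∀ (r : R1) (m : M1), n1 r • m = r • m := fun r m => by
    show q1.symm (q1 r) • m = r • m
    rw [RingEquiv.symm_apply_apply]
  have v0 : Module.Invertible Γ(X, U) M0 := JE.invertible_of_ringEquiv q0.symm fun r n => rfl
  have v1 : Module.Invertible Γ(X, V) M1 := JE.invertible_of_ringEquiv q1.symm fun r n => rfl
  obtain ⟨𝓜, hM, e0, e1, e, he0, he1⟩ := exists_glue' hU hV hW hWU hWV hUV (n0 t) ht (n1 t') ht'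
    M0 M1 M j0 j1
    (fun r m => by
      obtain ⟨r, rfl⟩ := b0.2 r
      rw [s0, r0, sA, hj0])
    (fun r m => by
      obtain ⟨r, rfl⟩ := b1.2 r
      rw [s1, r1, sA, hj1])
    (fun m => by
      obtain ⟨n, m0, hn⟩ := hs0 m
      refine ⟨n, m0, ?_⟩
      rw [← map_pow, r0, sA, hn])
    (fun m => by
      obtain ⟨n, m0, hn⟩ := hs1 m
      refine ⟨n, m0, ?_⟩
      rw [← map_pow, r1, sA, hn])
    (fun m hm => ⟨0, by
      have h : m = 0 := hi0 (hm.trans (map_zero j0).symm)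
      rw [h, smul_zero]⟩)
    (fun m hm => ⟨0, by
      have h : m = 0 := hi1 (hm.trans (map_zero j1).symm)
      rw [h, smul_zero]⟩)
  exact ⟨𝓜, hM, e0.toAddEquiv, e1.toAddEquiv, e.toAddEquiv,
    fun r s => (map_smul e (nA r) s).trans (sA r _), he0, he1⟩

end Glue

section Main

open Fermat.Agent.JPC Fermat.Agent.JKL Fermat.Agent.JCB

variable {k : Type u} [Field k] {C : Scheme.{u}} {c : C ⟶ Spec (CommRingCat.of k)}
  {ε : SchemeHomOver (𝟙 (Spec (CommRingCat.of k))) c} {X : TwoChart k} (ch : Chart c ε X)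
  {B : Type u} [CommRing B] [Algebra k B] {Y : Scheme.{u}} {fst : Y ⟶ C}
  {snd : Y ⟶ Spec (CommRingCat.of B)}
  (H : IsPullback fst snd c (Spec.map (CommRingCat.ofHom (algebraMap k B))))

/-- every line datum comes from an invertible module on `C_B` -/
theorem exists_toLD_iso (L : PreLD X B) (hL : L.IsLine) :
    ∃ (𝓜 : Y.Modules) (hM : JE.LocFree 𝓜 ⊤), Nonempty ((JE.toLD ch H 𝓜 hM).Iso L) := by
  have hUV : fst ⁻¹ᵁ ch.U ⊔ fst ⁻¹ᵁ ch.V = ⊤ := congrArg (fun O => fst ⁻¹ᵁ O) ch.cov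
  have v0 := hL.inv0
  have v1 := hL.inv1
  obtain ⟨𝓜, hM, e0, e1, e, eA, he0, he1⟩ := exists_glue_ring (W := fst ⁻¹ᵁ (ch.U ⊓ ch.V))
    (JE.aff0 ch H) (JE.aff1 ch H) rfl (JE.leU ch fst) (JE.leV ch fst) hUV
    (JE.muA ch H) (JE.mu0 ch H) (JE.mu1 ch H) (JE.muA_bij ch H) (JE.mu0_bij ch H)
    (JE.mu1_bij ch H) (ι0 X B).toRingHom (ι1 X B).toRingHom (JE.ro_mu0 ch H) (JE.ro_mu1 ch H)
    (t0 X B) (JE.basic0' ch H) (t1 X B) (JE.basic1' ch H) L.M0' L.M1' L.M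
    L.M0'.subtype.toAddMonoidHom L.M1'.subtype.toAddMonoidHom
    (fun r m => (ι0_smul L r _).symm)
    (fun r m => (ι1_smul L r _).symm)
    (fun m => by
      obtain ⟨n, hn⟩ := L.ex0 m
      refine ⟨n, ⟨_, hn⟩, ?_⟩
      show ι0 X B (t0 X B ^ n) • m = _
      rw [map_pow, ι0_t0, Algebra.TensorProduct.tmul_pow, one_pow]
      exact one_smul B _)
    (fun m => by
      obtain ⟨n, hn⟩ := L.ex1 m
      refine ⟨n, ⟨_, hn⟩, ?_⟩
      show ι1 X B (t1 X B ^ n) • m = _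
      rw [map_pow, ι1_t1, Algebra.TensorProduct.tmul_pow, one_pow]
      exact one_smul B _)
    Subtype.val_injective Subtype.val_injective
  have hm0 : ∀ s, e (JE.rs 𝓜 (JE.leU ch fst) s) ∈ L.M0 := fun s => by
    rw [← he0]
    exact (e0 s).2
  have hm1 : ∀ s, e (JE.rs 𝓜 (JE.leV ch fst) s) ∈ L.M1 := fun s => by
    rw [← he1]
    exact (e1 s).2
  have hn0 : ∀ m ∈ L.M0, ∃ s, e (JE.rs 𝓜 (JE.leU ch fst) s) = m := fun m hm => by
    refine ⟨e0.symm ⟨m, hm⟩, ?_⟩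
    rw [← he0, AddEquiv.apply_symm_apply]
    rfl
  have hn1 : ∀ m ∈ L.M1, ∃ s, e (JE.rs 𝓜 (JE.leV ch fst) s) = m := fun m hm => by
    refine ⟨e1.symm ⟨m, hm⟩, ?_⟩
    rw [← he1, AddEquiv.apply_symm_apply]
    rfl
  clear he0 he1 e0 e1
  let E : (JE.toLD ch H 𝓜 hM).M ≃ₗ[B] L.M :=
    { e with
      map_smul' := fun b m => (eA (b ⊗ₜ 1) m).trans (by
        show b • (1 : X.A) • e m = b • e m
        rw [one_smul]) }
  refine ⟨𝓜, hM, ⟨{ e := E, smul := fun a m => ?_, map0 := ?_, map1 := ?_ }⟩⟩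
  · exact (eA (1 ⊗ₜ a) m).trans (one_smul B _)
  · apply le_antisymm
    · rintro _ ⟨_, ⟨s, rfl⟩, rfl⟩
      exact hm0 s
    · intro m hm
      obtain ⟨s, hs⟩ := hn0 m hm
      exact ⟨JE.rs 𝓜 (JE.leU ch fst) s, ⟨s, rfl⟩, hs⟩
  · apply le_antisymm
    · rintro _ ⟨_, ⟨s, rfl⟩, rfl⟩
      exact hm1 s
    · intro m hm
      obtain ⟨s, hs⟩ := hn1 m hm
      exact ⟨JE.rs 𝓜 (JE.leV ch fst) s, ⟨s, rfl⟩, hs⟩

end Main

end Fermat.Agent.JEb
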