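import Mathlib
import Fermat.Prelude.Def_AlgebraicGeometry_RelativePicardFunctor

set_option autoImplicit false

/-! S25, block E2: elementary sheaf tools for modules on schemes. -/

universe u

open CategoryTheory Limits AlgebraicGeometry Opposite TopologicalSpace

namespace Fermat.Agent.JEb

section Raw

variable {T : Type*} [TopologicalSpace T] {F G : Opens T → Type*}

theorem bij_of_basis_raw
    (rF : ∀ {V W : Opens T}, V ≤ W → F W → F V) (rG : ∀ {V W : Opens T}, V ≤ W → G W → G V)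
    (rGc : ∀ {U V W : Opens T} (h : U ≤ V) (h' : V ≤ W) (a : G W),
      rG h (rG h' a) = rG (h.trans h') a)
    (sepF : ∀ (V : Opens T) (a b : F V),
      (∀ x ∈ V, ∃ (B : Opens T) (h : B ≤ V), x ∈ B ∧ rF h a = rF h b) → a = b)
    (gluF : ∀ (V : Opens T) (B : V → Opens T) (hB : ∀ x, B x ≤ V) (_ : ∀ x, (x : T) ∈ B x)
      (f : ∀ x, F (B x)), (∀ x y, rF (inf_le_left : B x ⊓ B y ≤ B x) (f x) =
        rF (inf_le_right : B x ⊓ B y ≤ B y) (f y)) → ∃ f' : F V, ∀ x, rF (hB x) f' = f x)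
    (sepG : ∀ (V : Opens T) (a b : G V),
      (∀ x ∈ V, ∃ (B : Opens T) (h : B ≤ V), x ∈ B ∧ rG h a = rG h b) → a = b)
    (D : Opens T) (φ : ∀ V, V ≤ D → F V → G V)
    (nat : ∀ {V W : Opens T} (h : V ≤ W) (hW : W ≤ D) (a : F W),
      φ V (h.trans hW) (rF h a) = rG h (φ W hW a))
    (P : Opens T → Prop) (hP : ∀ V ≤ D, ∀ x ∈ V, ∃ B, P B ∧ x ∈ B ∧ B ≤ V)
    (hb : ∀ B, P B → ∀ h : B ≤ D, Function.Bijective (φ B h)) :
    ∀ V (h : V ≤ D), Function.Bijective (φ V h) := by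
  have hinj : ∀ V (h : V ≤ D), Function.Injective (φ V h) := by
    intro V hV a b hab
    refine sepF V a b fun x hx => ?_
    obtain ⟨B, hB, hxB, hBV⟩ := hP V hV x hx
    refine ⟨B, hBV, hxB, (hb B hB (hBV.trans hV)).1 ?_⟩
    rw [nat hBV hV, nat hBV hV, hab]
  intro V hV
  refine ⟨hinj V hV, fun s => ?_⟩
  have hc : ∀ x : V, ∃ (B : Opens T) (hBV : B ≤ V), (x : T) ∈ B ∧
      ∃ f : F B, φ B (hBV.trans hV) f = rG hBV s := by
    intro x
    obtain ⟨B, hB, hxB, hBV⟩ := hP V hV x x.2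
    obtain ⟨f, hf⟩ := (hb B hB (hBV.trans hV)).2 (rG hBV s)
    exact ⟨B, hBV, hxB, f, hf⟩
  choose B hBV hxB f hf using hc
  obtain ⟨f', hf'⟩ := gluF V B hBV hxB f (by
    intro x y
    refine hinj _ ((inf_le_left.trans (hBV x)).trans hV) ?_
    rw [nat inf_le_left ((hBV x).trans hV), nat inf_le_right ((hBV y).trans hV), hf, hf, rGc, rGc])
  refine ⟨f', sepG V _ _ fun x hx => ⟨B ⟨x, hx⟩, hBV _, hxB _, ?_⟩⟩
  rw [← nat (hBV _) hV, hf', hf]

end Raw

variable {X : Scheme.{u}}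

/-- restriction of functions -/
noncomputable def rO {V W : X.Opens} (h : V ≤ W) : Γ(X, W) →+* Γ(X, V) :=
  (X.presheaf.map (homOfLE h).op).hom

/-- restriction of sections of a module -/
noncomputable def rM (M : X.Modules) {V W : X.Opens} (h : V ≤ W) : Γ(M, W) →+ Γ(M, V) :=
  (M.presheaf.map (homOfLE h).op).hom

@[simp] theorem rO_rO {U V W : X.Opens} (h : U ≤ V) (h' : V ≤ W) (a : Γ(X, W)) :
    rO h (rO h' a) = rO (h.trans h') a := by
  show (X.presheaf.map (homOfLE h).op) ((X.presheaf.map (homOfLE h').op) a) = _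
  rw [← ConcreteCategory.comp_apply, ← X.presheaf.map_comp]
  rfl

@[simp] theorem rO_self {V : X.Opens} (h : V ≤ V) (a : Γ(X, V)) : rO h a = a := by
  show (X.presheaf.map (homOfLE h).op) a = _
  rw [show (homOfLE h).op = 𝟙 (op V) from rfl, X.presheaf.map_id]
  rfl

@[simp] theorem rM_rM (M : X.Modules) {U V W : X.Opens} (h : U ≤ V) (h' : V ≤ W) (a : Γ(M, W)) :
    rM M h (rM M h' a) = rM M (h.trans h') a := by
  show (M.presheaf.map (homOfLE h).op) ((M.presheaf.map (homOfLE h').op) a) = _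
  rw [← ConcreteCategory.comp_apply, ← M.presheaf.map_comp]
  rfl

@[simp] theorem rM_self (M : X.Modules) {V : X.Opens} (h : V ≤ V) (a : Γ(M, V)) :
    rM M h a = a := by
  show (M.presheaf.map (homOfLE h).op) a = _
  rw [show (homOfLE h).op = 𝟙 (op V) from rfl, M.presheaf.map_id]
  rfl

@[simp] theorem rM_smul (M : X.Modules) {V W : X.Opens} (h : V ≤ W) (r : Γ(X, W)) (a : Γ(M, W)) :
    rM M h (r • a) = rO h r • rM M h a :=
  Scheme.Modules.map_smul M (homOfLE h) r a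

theorem app_rM {M N : X.Modules} (φ : M ⟶ N) {V W : X.Opens} (h : V ≤ W) (a : Γ(M, W)) :
    φ.app V (rM M h a) = rM N h (φ.app W a) := by
  have := congr($(φ.mapPresheaf.naturality (homOfLE h).op) a)
  exact this

theorem sepM (M : X.Modules) (V : X.Opens) (a b : Γ(M, V))
    (hab : ∀ x ∈ V, ∃ (B : X.Opens) (h : B ≤ V), x ∈ B ∧ rM M h a = rM M h b) : a = b := by
  choose B hB hx h using hab
  refine TopCat.Sheaf.eq_of_locally_eq' (⟨M.presheaf, M.isSheaf⟩ : TopCat.Sheaf Ab X)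
    (fun x : V => B x.1 x.2) V (fun x => homOfLE (hB x.1 x.2)) ?_ a b fun x => h x.1 x.2
  intro x hxV
  exact Opens.mem_iSup.2 ⟨⟨x, hxV⟩, hx x hxV⟩

theorem gluM (M : X.Modules) {ι : Type*} (V : X.Opens) (B : ι → X.Opens) (hB : ∀ x, B x ≤ V)
    (hx : V ≤ ⨆ i, B i)
    (f : ∀ x, Γ(M, B x)) (hf : ∀ x y, rM M (inf_le_left : B x ⊓ B y ≤ B x) (f x) =
        rM M (inf_le_right : B x ⊓ B y ≤ B y) (f y)) : ∃ f' : Γ(M, V), ∀ x, rM M (hB x) f' = f x := by
  obtain ⟨s, hs, -⟩ := TopCat.Sheaf.existsUnique_gluing' (⟨M.presheaf, M.isSheaf⟩ : TopCat.Sheaf Ab X)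
    B V (fun x => homOfLE (hB x)) hx f (fun x y => hf x y)
  exact ⟨s, hs⟩

theorem sepO (V : X.Opens) (a b : Γ(X, V))
    (hab : ∀ x ∈ V, ∃ (B : X.Opens) (h : B ≤ V), x ∈ B ∧ rO h a = rO h b) : a = b := by
  choose B hB hx h using hab
  refine X.sheaf.eq_of_locally_eq'
    (fun x : V => B x.1 x.2) V (fun x => homOfLE (hB x.1 x.2)) ?_ a b fun x => h x.1 x.2
  intro x hxV
  exact Opens.mem_iSup.2 ⟨⟨x, hxV⟩, hx x hxV⟩

theorem gluO {ι : Type*} (V : X.Opens) (B : ι → X.Opens) (hB : ∀ x, B x ≤ V)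
    (hx : V ≤ ⨆ i, B i)
    (f : ∀ x, Γ(X, B x)) (hf : ∀ x y, rO (inf_le_left : B x ⊓ B y ≤ B x) (f x) =
        rO (inf_le_right : B x ⊓ B y ≤ B y) (f y)) : ∃ f' : Γ(X, V), ∀ x, rO (hB x) f' = f x := by
  obtain ⟨s, hs, -⟩ := X.sheaf.existsUnique_gluing'
    B V (fun x => homOfLE (hB x)) hx f (fun x y => hf x y)
  exact ⟨s, hs⟩

theorem le_iSup_of_mem {V : X.Opens} (B : V → X.Opens) (hx : ∀ x : V, (x : X) ∈ B x) :
    V ≤ ⨆ i, B i :=
  fun x hxV => Opens.mem_iSup.2 ⟨⟨x, hxV⟩, hx ⟨x, hxV⟩⟩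

/-- a morphism of modules which is bijective on a basis of `D` is bijective below `D` -/
theorem app_bij_of_basis {M N : X.Modules} (φ : M ⟶ N) (D : X.Opens) (P : X.Opens → Prop)
    (hP : ∀ V ≤ D, ∀ x ∈ V, ∃ B, P B ∧ x ∈ B ∧ B ≤ V)
    (hb : ∀ B, P B → B ≤ D → Function.Bijective (φ.app B)) :
    ∀ V ≤ D, Function.Bijective (φ.app V) :=
  bij_of_basis_raw (F := fun V => Γ(M, V)) (G := fun V => Γ(N, V))
    (fun h a => rM M h a) (fun h a => rM N h a) (rM_rM N) (sepM M)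
    (fun V B hB hx f hf => gluM M V B hB (le_iSup_of_mem B hx) f hf) (sepM N) D
    (fun V _ a => φ.app V a) (fun h _ a => app_rM φ h a) P hP hb

/-- generator of a module over an open -/
theorem gen_of_basis {M : X.Modules} (D : X.Opens) (s : Γ(M, D)) (P : X.Opens → Prop)
    (hP : ∀ V ≤ D, ∀ x ∈ V, ∃ B, P B ∧ x ∈ B ∧ B ≤ V)
    (hb : ∀ B, P B → ∀ h : B ≤ D, Function.Bijective (fun a : Γ(X, B) => a • rM M h s)) :
    ∀ V (h : V ≤ D), Function.Bijective (fun a : Γ(X, V) => a • rM M h s) :=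
  bij_of_basis_raw (F := fun V => Γ(X, V)) (G := fun V => Γ(M, V))
    (fun h a => rO h a) (fun h a => rM M h a) (rM_rM M) sepO
    (fun V B hB hx f hf => gluO V B hB (le_iSup_of_mem B hx) f hf) (sepM M) D
    (fun V h a => a • rM M h s) (fun h _ a => by simp) P hP hb

end Fermat.Agent.JEb
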