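import Fermat.Agent.JEb.Map

set_option autoImplicit false

/-! S25, block E2: bijectivity of the comparison maps. -/

universe u

open CategoryTheory Limits AlgebraicGeometry Opposite TopologicalSpace

namespace Fermat.Agent.JEb

variable {X : Scheme.{u}}

theorem isUnit_rO_basicOpen {U : X.Opens} (f : Γ(X, U)) {O : X.Opens} (h : O ≤ X.basicOpen f)
    (hO : O ≤ U) : IsUnit (rO hO f) := by
  have h1 : IsUnit (rO (X.basicOpen_le f) f) := RingedSpace.isUnit_res_basicOpen _ f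
  have h2 : rO hO f = rO h (rO (X.basicOpen_le f) f) := by rw [rO_rO]
  rw [h2]
  exact h1.map (rO h)

section

variable {U : X.Opens} (hU : IsAffineOpen U) (N : ModuleCat.{u} Γ(X, U))

theorem secs_exists' (f : Γ(X, U)) {O : X.Opens} (e : O = X.basicOpen f) (hO : O ≤ U)
    (s : Γ(sh hU N, O)) : ∃ (n : ℕ) (m : N), rO hO (f ^ n) • s = secs hU N _ m := by
  subst e
  exact secs_exists hU N f s

theorem secs_eq_zero' (f : Γ(X, U)) {O : X.Opens} (e : O = X.basicOpen f)
    (m : N) (h : secs hU N O m = 0) : ∃ n : ℕ, f ^ n • m = 0 := by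
  subst e
  exact secs_eq_zero hU N f m h

end

theorem smul_eq_zero_of_isUnit {M : X.Modules} {O : X.Opens} {a : Γ(X, O)} (ha : IsUnit a)
    {s : Γ(M, O)} (h : a • s = 0) : s = 0 := by
  obtain ⟨u, rfl⟩ := ha
  have : ((u⁻¹ : (Γ(X, O))ˣ) : Γ(X, O)) • ((u : Γ(X, O)) • s) = 0 := by rw [h, smul_zero]
  rwa [← mul_smul, Units.inv_mul, one_smul] at this

variable {U W : X.Opens} (hU : IsAffineOpen U) (hW : IsAffineOpen W) (h : W ≤ U)
  (N : ModuleCat.{u} Γ(X, U)) (N' : ModuleCat.{u} Γ(X, W))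
  (g : N →+ N') (hg : ∀ (r : Γ(X, U)) (n : N), g (r • n) = rO h r • g n)
  (t : Γ(X, U)) (ht : X.basicOpen t = W)
  (hsurj : ∀ n' : N', ∃ (k : ℕ) (n : N), rO h (t ^ k) • n' = g n)
  (hinj : ∀ n : N, g n = 0 → ∃ k : ℕ, t ^ k • n = 0)

include ht hsurj hinj in
theorem shMap_bij_basic (f : Γ(X, U)) (hf : X.basicOpen f ≤ W) :
    Function.Bijective ((shMap hU hW h N N' g hg).app (X.basicOpen f)) := by
  have hfU : X.basicOpen f ≤ U := X.basicOpen_le f
  have e : X.basicOpen f = X.basicOpen (rO h f) := by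
    have : X.basicOpen (rO h f) = W ⊓ X.basicOpen f := X.basicOpen_res f (homOfLE h).op
    rw [this]; exact (inf_eq_right.2 hf).symm
  have uf : IsUnit (rO hfU f) := isUnit_rO_basicOpen f le_rfl hfU
  have ut : IsUnit (rO hfU t) := isUnit_rO_basicOpen t (ht ▸ hf) hfU
  refine ⟨?_, ?_⟩
  · refine (injective_iff_map_eq_zero
      ((shMap hU hW h N N' g hg).app (X.basicOpen f)).hom).2 fun s hs => ?_
    replace hs : (shMap hU hW h N N' g hg).app (X.basicOpen f) s = 0 := hs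
    obtain ⟨n, m, hm⟩ := secs_exists hU N f s
    have h1 : secs hW N' (X.basicOpen f) (g m) = 0 := by
      rw [← shMap_app hU hW h N N' g hg, ← hm, Scheme.Modules.Hom.app_smul, hs, smul_zero]
    obtain ⟨k, hk⟩ := secs_eq_zero' hW N' (rO h f) e _ h1
    rw [← map_pow, ← hg] at hk
    obtain ⟨l, hl⟩ := hinj _ hk
    have h2 : secs hU N (X.basicOpen f) m = 0 := by
      have h3 : rO hfU (t ^ l * f ^ k) • secs hU N (X.basicOpen f) m = 0 := by
        rw [← secs_smul, mul_smul, hl, map_zero]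
      refine smul_eq_zero_of_isUnit ?_ h3
      rw [map_mul, map_pow, map_pow]
      exact (ut.pow l).mul (uf.pow k)
    rw [h2] at hm
    refine smul_eq_zero_of_isUnit ?_ hm
    rw [map_pow]
    exact uf.pow n
  · intro y
    obtain ⟨n, n', hn'⟩ := secs_exists' hW N' (rO h f) e hf y
    obtain ⟨k, m, hm⟩ := hsurj n'
    have h1 : rO hfU (t ^ k * f ^ n) • y =
        (shMap hU hW h N N' g hg).app (X.basicOpen f) (secs hU N _ m) := by
      rw [shMap_app, ← hm, secs_smul hW N' _ hf, ← hn', rO_rO, ← map_pow, rO_rO, ← mul_smul,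
        ← map_mul]
    have hu : IsUnit (rO hfU (t ^ k * f ^ n)) := by
      rw [map_mul, map_pow, map_pow]
      exact (ut.pow k).mul (uf.pow n)
    obtain ⟨u, hu⟩ := hu
    refine ⟨((u⁻¹ : (Γ(X, X.basicOpen f))ˣ) : Γ(X, X.basicOpen f)) • secs hU N _ m, ?_⟩
    rw [Scheme.Modules.Hom.app_smul, ← h1, ← hu, ← mul_smul, Units.inv_mul, one_smul]

include ht hsurj hinj in
theorem shMap_bij : ∀ O ≤ W, Function.Bijective ((shMap hU hW h N N' g hg).app O) := by
  refine app_bij_of_basis _ W (fun B => ∃ f : Γ(X, U), B = X.basicOpen f) ?_ ?_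
  · intro V hV x hx
    obtain ⟨f, hf, hxf⟩ := hU.exists_basicOpen_le (V := V) ⟨x, hx⟩ (h (hV hx))
    exact ⟨_, ⟨f, rfl⟩, hxf, hf⟩
  · rintro _ ⟨f, rfl⟩ hB
    exact shMap_bij_basic hU hW h N N' g hg t ht hsurj hinj f hB

end Fermat.Agent.JEb
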