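import Fermat.Agent.JEb.Bij
import Fermat.Agent.JE.Loc

set_option autoImplicit false

/-! S25, block E2: frames of the sheaf attached to an invertible module. -/

universe u

open CategoryTheory Limits AlgebraicGeometry Opposite TopologicalSpace

namespace Fermat.Agent.JEb

/-- functionals on an invertible module become isomorphisms where they are nonzero -/
theorem inv_frame {R N : Type*} [CommRing R] [AddCommGroup N] [Module R N] [Module.Invertible R N]
    (φ : Module.Dual R N) (m : N) :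
    (∀ n : N, ∃ (k : ℕ) (r : R), (φ m) ^ k • n = r • m) ∧ ∀ r : R, r • m = 0 → φ m * r = 0 := by
  refine ⟨fun n => ?_, fun r hr => ?_⟩
  · let f' : Module.Dual (Localization.Away (φ m)) (LocalizedModule.Away (φ m) N) :=
      .extendScalarsOfIsLocalization (.powers (φ m)) _ <| IsLocalizedModule.map
        (.powers (φ m)) (LocalizedModule.mkLinearMap _ N) (Algebra.linearMap R _) φ
    have surj : Function.Surjective f' := LinearMap.range_eq_top.mp <| Ideal.eq_top_of_isUnit_mem
      _ ⟨_, IsLocalizedModule.map_apply ..⟩ (IsLocalization.Away.algebraMap_isUnit (φ m))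
    have hb := Module.Invertible.bijective_of_surjective surj
    have h0 : LocalizedModule.mkLinearMap (.powers (φ m)) N (φ m • n - φ n • m) = 0 := by
      apply hb.1
      rw [map_zero]
      show IsLocalizedModule.map (.powers (φ m)) (LocalizedModule.mkLinearMap _ N)
        (Algebra.linearMap R _) φ _ = 0
      rw [IsLocalizedModule.map_apply]
      simp [mul_comm]
    obtain ⟨⟨_, k, rfl⟩, hk⟩ := (IsLocalizedModule.eq_zero_iff (.powers (φ m))
      (LocalizedModule.mkLinearMap (.powers (φ m)) N)).1 h0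
    refine ⟨k + 1, φ m ^ k * φ n, ?_⟩
    have hk' : φ m ^ k • (φ m • n - φ n • m) = 0 := hk
    rw [smul_sub, sub_eq_zero, ← mul_smul, ← mul_smul, ← pow_succ] at hk'
    exact hk'
  · have := congrArg φ hr
    rwa [map_smul, map_zero, smul_eq_mul, mul_comm] at this

theorem inv_cover {R N : Type*} [CommRing R] [AddCommGroup N] [Module R N] [Module.Invertible R N]
    (p : Ideal R) (hp : p ≠ ⊤) : ∃ (φ : Module.Dual R N) (m : N), φ m ∉ p := by
  by_contra hcon
  push Not at hcon
  refine hp (Ideal.eq_top_iff_one _ |>.2 ?_)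
  have key : ∀ z, Module.Invertible.linearEquiv R N z ∈ p := by
    intro z
    induction z using TensorProduct.induction_on with
    | zero => rw [map_zero]; exact p.zero_mem
    | tmul φ m => exact hcon φ m
    | add a b ha hb => rw [map_add]; exact p.add_mem ha hb
  obtain ⟨z, hz⟩ := (Module.Invertible.linearEquiv R N).surjective 1
  rw [← hz]
  exact key z

variable {X : Scheme.{u}} {U : X.Opens} (hU : IsAffineOpen U) (N : ModuleCat.{u} Γ(X, U))

/-- an element which is a frame after inverting `f` gives a frame of the sheaf over `D(f)` -/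
theorem gen_secs (f : Γ(X, U)) (m : N) (h1 : ∀ n : N, ∃ (k : ℕ) (r : Γ(X, U)), f ^ k • n = r • m)
    (h2 : ∀ r : Γ(X, U), r • m = 0 → ∃ k : ℕ, f ^ k * r = 0) :
    JPb.Gen (sh hU N) (X.basicOpen f) (secs hU N _ m) := by
  refine gen_of_basis (X.basicOpen f) _ (fun B => ∃ g : Γ(X, U), B = X.basicOpen g) ?_ ?_
  · intro V hV x hx
    obtain ⟨g, hg, hxg⟩ := hU.exists_basicOpen_le (V := V) ⟨x, hx⟩ (X.basicOpen_le f (hV hx))
    exact ⟨_, ⟨g, rfl⟩, hxg, hg⟩
  · rintro _ ⟨g, rfl⟩ hgf
    have hgU : X.basicOpen g ≤ U := X.basicOpen_le g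
    have ug : IsUnit (rO hgU g) := isUnit_rO_basicOpen g le_rfl hgU
    have uf : IsUnit (rO hgU f) := isUnit_rO_basicOpen f hgf hgU
    have hloc := hU.isLocalization_basicOpen g
    have hmap : ∀ r : Γ(X, U), algebraMap Γ(X, U) Γ(X, X.basicOpen g) r = rO hgU r := fun r => rfl
    rw [secs_res hU N hgf m]
    refine ⟨?_, ?_⟩
    · intro a b hab
      have hab' : (a - b) • secs hU N (X.basicOpen g) m = 0 := by
        rw [sub_smul, sub_eq_zero]; exact hab
      obtain ⟨⟨r, ⟨_, n, rfl⟩⟩, hr⟩ := IsLocalization.surj (.powers g) (a - b)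
      simp only [hmap] at hr
      have h3 : secs hU N (X.basicOpen g) (r • m) = 0 := by
        rw [secs_smul hU N _ hgU, ← hr, mul_comm, mul_smul, hab', smul_zero]
      obtain ⟨k, hk⟩ := secs_eq_zero hU N g _ h3
      rw [← mul_smul] at hk
      obtain ⟨l, hl⟩ := h2 _ hk
      have h4 : rO hgU (f ^ l * g ^ k) * rO hgU r = 0 := by
        rw [← map_mul, mul_assoc, hl, map_zero]
      have hu : IsUnit (rO hgU (f ^ l * g ^ k)) := by
        rw [map_mul, map_pow, map_pow]; exact (uf.pow l).mul (ug.pow k)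
      have h5 : rO hgU r = 0 := by
        rwa [hu.mul_right_eq_zero] at h4
      rw [h5, map_pow] at hr
      exact sub_eq_zero.1 ((ug.pow n).mul_left_eq_zero.1 hr)
    · intro s
      obtain ⟨n, m', hm'⟩ := secs_exists hU N g s
      obtain ⟨k, r, hr⟩ := h1 m'
      have h3 : rO hgU (f ^ k * g ^ n) • s = rO hgU r • secs hU N _ m := by
        rw [← secs_smul hU N _ hgU, ← hr, secs_smul hU N _ hgU, ← hm', map_mul, mul_smul]
      have hu : IsUnit (rO hgU (f ^ k * g ^ n)) := by
        rw [map_mul, map_pow, map_pow]; exact (uf.pow k).mul (ug.pow n)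
      obtain ⟨u, hu⟩ := hu
      refine ⟨((u⁻¹ : (Γ(X, X.basicOpen g))ˣ) : Γ(X, X.basicOpen g)) * rO hgU r, ?_⟩
      show _ • _ = s
      rw [mul_smul, ← h3, ← hu, ← mul_smul, Units.inv_mul, one_smul]

theorem exists_gen_sh [Module.Invertible Γ(X, U) N] (x : X) (hx : x ∈ U) :
    ∃ (f : Γ(X, U)) (m : N), x ∈ X.basicOpen f ∧
      JPb.Gen (sh hU N) (X.basicOpen f) (secs hU N _ m) := by
  obtain ⟨φ, m, hφ⟩ := inv_cover (R := Γ(X, U)) (N := N) (hU.primeIdealOf ⟨x, hx⟩).asIdeal
    (hU.primeIdealOf ⟨x, hx⟩).isPrime.ne_top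
  refine ⟨φ m, m, ?_, gen_secs hU N (φ m) m (inv_frame φ m).1
    fun r hr => ⟨1, by rw [pow_one]; exact (inv_frame φ m).2 r hr⟩⟩
  have h1 : hU.primeIdealOf ⟨x, hx⟩ ∈ PrimeSpectrum.basicOpen (φ m) := hφ
  rw [← hU.fromSpec_preimage_basicOpen] at h1
  have h2 : hU.fromSpec (hU.primeIdealOf ⟨x, hx⟩) ∈ X.basicOpen (φ m) := h1
  rwa [hU.fromSpec_primeIdealOf] at h2

end Fermat.Agent.JEb
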