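import Fermat.Agent.JEb.Frame

set_option autoImplicit false

/-! S25, block E2: glueing an invertible sheaf from modules on two affine opens. -/

universe u

open CategoryTheory Limits AlgebraicGeometry Opposite TopologicalSpace

namespace Fermat.Agent.JEb

variable {X : Scheme.{u}}

section Pull

variable {A B C : X.Modules} (α : A ⟶ C) (β : B ⟶ C)

/-- sections functor -/
noncomputable def ev (O : X.Opens) : X.Modules ⥤ Type u :=
  Scheme.Modules.toPresheaf X ⋙ (evaluation _ _).obj (op O) ⋙ forget Ab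

theorem ev_isPullback (O : X.Opens) :
    IsPullback ((ev O).map (pullback.fst α β)) ((ev O).map (pullback.snd α β))
      ((ev O).map α) ((ev O).map β) := by
  have h1 := (IsPullback.of_hasPullback α β).map (Scheme.Modules.toPresheaf X)
  exact h1.map ((evaluation _ _).obj (op O) ⋙ forget Ab)

theorem pull_exists (O : X.Opens) (a : Γ(A, O)) (b : Γ(B, O)) (h : α.app O a = β.app O b) :
    ∃ s : Γ(pullback α β, O), (pullback.fst α β).app O s = a ∧ (pullback.snd α β).app O s = b := by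
  obtain ⟨s, hs1, hs2⟩ := Types.exists_of_isPullback (ev_isPullback α β O) a b h
  exact ⟨s, hs1, hs2⟩

theorem pull_ext (O : X.Opens) (s s' : Γ(pullback α β, O))
    (h1 : (pullback.fst α β).app O s = (pullback.fst α β).app O s')
    (h2 : (pullback.snd α β).app O s = (pullback.snd α β).app O s') : s = s' :=
  Types.ext_of_isPullback (ev_isPullback α β O) h1 h2

theorem pull_w (O : X.Opens) (s : Γ(pullback α β, O)) :
    α.app O ((pullback.fst α β).app O s) = β.app O ((pullback.snd α β).app O s) :=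
  congr($((ev_isPullback α β O).w) s)

theorem fst_bij (O : X.Opens) (h : Function.Bijective (β.app O)) :
    Function.Bijective ((pullback.fst α β).app O) := by
  refine ⟨fun s s' hs => pull_ext α β O s s' hs (h.1 ?_), fun a => ?_⟩
  · rw [← pull_w, ← pull_w, hs]
  · obtain ⟨b, hb⟩ := h.2 (α.app O a)
    obtain ⟨s, hs, -⟩ := pull_exists α β O a b hb.symm
    exact ⟨s, hs⟩

theorem snd_bij (O : X.Opens) (h : Function.Bijective (α.app O)) :
    Function.Bijective ((pullback.snd α β).app O) := by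
  refine ⟨fun s s' hs => pull_ext α β O s s' (h.1 ?_) hs, fun b => ?_⟩
  · rw [pull_w, pull_w, hs]
  · obtain ⟨a, ha⟩ := h.2 (β.app O b)
    obtain ⟨s, -, hs⟩ := pull_exists α β O a b ha
    exact ⟨s, hs⟩

end Pull

theorem gen_of_bij {M A : X.Modules} (p : M ⟶ A) (D : X.Opens)
    (hp : ∀ V ≤ D, Function.Bijective (p.app V)) (a : Γ(A, D)) (ha : JPb.Gen A D a) :
    ∃ s : Γ(M, D), JPb.Gen M D s := by
  obtain ⟨s, rfl⟩ := (hp D le_rfl).2 a
  refine ⟨s, fun V hV => ?_⟩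
  have h1 := ha V hV
  have h2 : (fun a : Γ(X, V) => a • A.presheaf.map (homOfLE hV).op (p.app D s)) =
      p.app V ∘ fun a : Γ(X, V) => a • M.presheaf.map (homOfLE hV).op s := by
    funext a
    show a • rM A hV (p.app D s) = p.app V (a • rM M hV s)
    rw [Scheme.Modules.Hom.app_smul, app_rM]
  rw [h2] at h1
  exact (Function.Bijective.of_comp_iff' (hp V hV) _).1 h1

section Main

variable {U V : X.Opens} (hU : IsAffineOpen U) (hV : IsAffineOpen V)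
  (t : Γ(X, U)) (ht : X.basicOpen t = U ⊓ V) (t' : Γ(X, V)) (ht' : X.basicOpen t' = U ⊓ V)
  (M0 : ModuleCat.{u} Γ(X, U)) (M1 : ModuleCat.{u} Γ(X, V)) (M : ModuleCat.{u} Γ(X, U ⊓ V))
  (j0 : M0 →+ M) (j1 : M1 →+ M)
  (hj0 : ∀ (r : Γ(X, U)) (m : M0), j0 (r • m) = rO (inf_le_left : U ⊓ V ≤ U) r • j0 m)
  (hj1 : ∀ (r : Γ(X, V)) (m : M1), j1 (r • m) = rO (inf_le_right : U ⊓ V ≤ V) r • j1 m)
  (hs0 : ∀ m : M, ∃ (k : ℕ) (m0 : M0), rO (inf_le_left : U ⊓ V ≤ U) (t ^ k) • m = j0 m0)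
  (hs1 : ∀ m : M, ∃ (k : ℕ) (m1 : M1), rO (inf_le_right : U ⊓ V ≤ V) (t' ^ k) • m = j1 m1)
  (hi0 : ∀ m : M0, j0 m = 0 → ∃ k : ℕ, t ^ k • m = 0)
  (hi1 : ∀ m : M1, j1 m = 0 → ∃ k : ℕ, t' ^ k • m = 0)

include ht' hs1 hi1 in
/-- the comparison from the second chart is bijective over opens of the first chart -/
theorem shMap_bij_left (hW : IsAffineOpen (U ⊓ V)) (O : X.Opens) (hO : O ≤ U) :
    Function.Bijective ((shMap hV hW inf_le_right M1 M j1 hj1).app O) := by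
  have h1 := shMap_bij hV hW inf_le_right M1 M j1 hj1 t' ht' hs1 hi1 (O ⊓ V)
    (le_inf (inf_le_left.trans hO) inf_le_right)
  have h2 : Function.Bijective (rM (sh hV M1) (inf_le_left : O ⊓ V ≤ O)) :=
    rM_sh_bij hV M1 _ le_rfl
  have h3 : Function.Bijective (rM (sh hW M) (inf_le_left : O ⊓ V ≤ O)) :=
    rM_sh_bij hW M _ (le_inf inf_le_left (inf_le_right.trans inf_le_right))
  have h4 : ⇑(rM (sh hW M) (inf_le_left : O ⊓ V ≤ O)) ∘
      ((shMap hV hW inf_le_right M1 M j1 hj1).app O) =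
      ((shMap hV hW inf_le_right M1 M j1 hj1).app (O ⊓ V)) ∘
        ⇑(rM (sh hV M1) (inf_le_left : O ⊓ V ≤ O)) := by
    funext a
    exact (app_rM _ _ a).symm
  have h5 := h1.comp h2
  rw [← h4] at h5
  exact (Function.Bijective.of_comp_iff' h3 _).1 h5

include ht hs0 hi0 in
/-- the comparison from the first chart is bijective over opens of the second chart -/
theorem shMap_bij_right (hW : IsAffineOpen (U ⊓ V)) (O : X.Opens) (hO : O ≤ V) :
    Function.Bijective ((shMap hU hW inf_le_left M0 M j0 hj0).app O) := by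
  have h1 := shMap_bij hU hW inf_le_left M0 M j0 hj0 t ht hs0 hi0 (O ⊓ U)
    (le_inf inf_le_right (inf_le_left.trans hO))
  have h2 : Function.Bijective (rM (sh hU M0) (inf_le_left : O ⊓ U ≤ O)) :=
    rM_sh_bij hU M0 _ le_rfl
  have h3 : Function.Bijective (rM (sh hW M) (inf_le_left : O ⊓ U ≤ O)) :=
    rM_sh_bij hW M _ (le_inf inf_le_left (inf_le_right.trans inf_le_left))
  have h4 : ⇑(rM (sh hW M) (inf_le_left : O ⊓ U ≤ O)) ∘
      ((shMap hU hW inf_le_left M0 M j0 hj0).app O) =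
      ((shMap hU hW inf_le_left M0 M j0 hj0).app (O ⊓ U)) ∘
        ⇑(rM (sh hU M0) (inf_le_left : O ⊓ U ≤ O)) := by
    funext a
    exact (app_rM _ _ a).symm
  have h5 := h1.comp h2
  rw [← h4] at h5
  exact (Function.Bijective.of_comp_iff' h3 _).1 h5

include hU hV ht ht' hj0 hj1 hs0 hs1 hi0 hi1 in
theorem exists_glue_cat (hUV : U ⊔ V = ⊤)
    [Module.Invertible Γ(X, U) M0] [Module.Invertible Γ(X, V) M1] :
    ∃ 𝓜 : X.Modules, JE.LocFree 𝓜 ⊤ ∧
      ∃ (e0 : Γ(𝓜, U) ≃+ M0) (e1 : Γ(𝓜, V) ≃+ M1) (e : Γ(𝓜, U ⊓ V) ≃+ M),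
        (∀ (r : Γ(X, U)) (s : Γ(𝓜, U)), e0 (r • s) = r • e0 s) ∧
        (∀ (r : Γ(X, V)) (s : Γ(𝓜, V)), e1 (r • s) = r • e1 s) ∧
        (∀ (r : Γ(X, U ⊓ V)) (s : Γ(𝓜, U ⊓ V)), e (r • s) = r • e s) ∧
        (∀ s : Γ(𝓜, U), j0 (e0 s) = e (rM 𝓜 inf_le_left s)) ∧
        (∀ s : Γ(𝓜, V), j1 (e1 s) = e (rM 𝓜 inf_le_right s)) := by
  have hW : IsAffineOpen (U ⊓ V) := ht ▸ hU.basicOpen t
  let α := shMap hU hW inf_le_left M0 M j0 hj0
  let β := shMap hV hW inf_le_right M1 M j1 hj1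
  have hα : ∀ O ≤ V, Function.Bijective (α.app O) :=
    fun O hO => shMap_bij_right hU t ht M0 M j0 hj0 hs0 hi0 hW O hO
  have hβ : ∀ O ≤ U, Function.Bijective (β.app O) :=
    fun O hO => shMap_bij_left hV t' ht' M1 M j1 hj1 hs1 hi1 hW O hO
  have hp1 : ∀ O ≤ U, Function.Bijective ((pullback.fst α β).app O) :=
    fun O hO => fst_bij α β O (hβ O hO)
  have hp2 : ∀ O ≤ V, Function.Bijective ((pullback.snd α β).app O) :=
    fun O hO => snd_bij α β O (hα O hO)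
  refine ⟨pullback α β, ?_, ?_⟩
  · intro x _
    have hx : x ∈ U ⊔ V := hUV ▸ trivial
    rcases hx with hx | hx
    · obtain ⟨f, m, hxf, hg⟩ := exists_gen_sh hU M0 x hx
      exact ⟨_, hxf, gen_of_bij (pullback.fst α β) _
        (fun O hO => hp1 O (hO.trans (X.basicOpen_le f))) _ hg⟩
    · obtain ⟨f, m, hxf, hg⟩ := exists_gen_sh hV M1 x hx
      exact ⟨_, hxf, gen_of_bij (pullback.snd α β) _
        (fun O hO => hp2 O (hO.trans (X.basicOpen_le f))) _ hg⟩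
  · let f0 : Γ(pullback α β, U) ≃+ Γ(sh hU M0, U) :=
      AddEquiv.ofBijective ((pullback.fst α β).app U).hom (hp1 U le_rfl)
    let f1 : Γ(pullback α β, V) ≃+ Γ(sh hV M1, V) :=
      AddEquiv.ofBijective ((pullback.snd α β).app V).hom (hp2 V le_rfl)
    let fW : Γ(pullback α β, U ⊓ V) ≃+ Γ(sh hW M, U ⊓ V) :=
      AddEquiv.ofBijective ((pullback.fst α β ≫ α).app (U ⊓ V)).hom
        ((hα _ inf_le_right).comp (hp1 _ inf_le_left))
    let g0 : M0 ≃+ Γ(sh hU M0, U) := AddEquiv.ofBijective (secs hU M0 U) (secs_bij hU M0 le_rfl)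
    let g1 : M1 ≃+ Γ(sh hV M1, V) := AddEquiv.ofBijective (secs hV M1 V) (secs_bij hV M1 le_rfl)
    let gW : M ≃+ Γ(sh hW M, U ⊓ V) :=
      AddEquiv.ofBijective (secs hW M (U ⊓ V)) (secs_bij hW M le_rfl)
    have f0s : ∀ s, f0 s = (pullback.fst α β).app U s := fun s => rfl
    have f1s : ∀ s, f1 s = (pullback.snd α β).app V s := fun s => rfl
    have fWs : ∀ s, fW s = α.app (U ⊓ V) ((pullback.fst α β).app (U ⊓ V) s) := fun s => rfl
    have g0s : ∀ s, g0 s = secs hU M0 U s := fun s => rfl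
    have g1s : ∀ s, g1 s = secs hV M1 V s := fun s => rfl
    have gWs : ∀ s, gW s = secs hW M (U ⊓ V) s := fun s => rfl
    refine ⟨f0.trans g0.symm, f1.trans g1.symm, fW.trans gW.symm, ?_, ?_, ?_, ?_, ?_⟩
    · intro r s
      show g0.symm (f0 (r • s)) = r • g0.symm (f0 s)
      rw [AddEquiv.symm_apply_eq, g0s, secs_smul hU M0 U le_rfl, rO_self, ← g0s,
        AddEquiv.apply_symm_apply, f0s, f0s, Scheme.Modules.Hom.app_smul]
    · intro r s
      show g1.symm (f1 (r • s)) = r • g1.symm (f1 s)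
      rw [AddEquiv.symm_apply_eq, g1s, secs_smul hV M1 V le_rfl, rO_self, ← g1s,
        AddEquiv.apply_symm_apply, f1s, f1s, Scheme.Modules.Hom.app_smul]
    · intro r s
      show gW.symm (fW (r • s)) = r • gW.symm (fW s)
      rw [AddEquiv.symm_apply_eq, gWs, secs_smul hW M _ le_rfl, rO_self, ← gWs,
        AddEquiv.apply_symm_apply, fWs, fWs, Scheme.Modules.Hom.app_smul,
        Scheme.Modules.Hom.app_smul]
    · intro s
      show j0 (g0.symm (f0 s)) = gW.symm (fW (rM _ inf_le_left s))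
      rw [AddEquiv.eq_symm_apply, gWs, fWs, app_rM, ← f0s, ← shMap_app hU hW inf_le_left M0 M j0 hj0,
        ← secs_res hU M0 (inf_le_left : U ⊓ V ≤ U), ← g0s, AddEquiv.apply_symm_apply]
    · intro s
      show j1 (g1.symm (f1 s)) = gW.symm (fW (rM _ inf_le_right s))
      rw [AddEquiv.eq_symm_apply, gWs, fWs, pull_w, app_rM, ← f1s,
        ← shMap_app hV hW inf_le_right M1 M j1 hj1,
        ← secs_res hV M1 (inf_le_right : U ⊓ V ≤ V), ← g1s, AddEquiv.apply_symm_apply]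

end Main

/-- **Glueing**: unbundled version. -/
theorem exists_glue {U V : X.Opens} (hU : IsAffineOpen U) (hV : IsAffineOpen V)
    (hUV : U ⊔ V = ⊤) (t : Γ(X, U)) (ht : X.basicOpen t = U ⊓ V) (t' : Γ(X, V))
    (ht' : X.basicOpen t' = U ⊓ V)
    (M0 M1 M : Type u) [AddCommGroup M0] [AddCommGroup M1] [AddCommGroup M]
    [Module Γ(X, U) M0] [Module Γ(X, V) M1] [Module Γ(X, U ⊓ V) M]
    [Module.Invertible Γ(X, U) M0] [Module.Invertible Γ(X, V) M1]
    (j0 : M0 →+ M) (j1 : M1 →+ M)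
    (hj0 : ∀ (r : Γ(X, U)) (m : M0), j0 (r • m) = JE.ro (inf_le_left : U ⊓ V ≤ U) r • j0 m)
    (hj1 : ∀ (r : Γ(X, V)) (m : M1), j1 (r • m) = JE.ro (inf_le_right : U ⊓ V ≤ V) r • j1 m)
    (hs0 : ∀ m : M, ∃ (k : ℕ) (m0 : M0), JE.ro (inf_le_left : U ⊓ V ≤ U) (t ^ k) • m = j0 m0)
    (hs1 : ∀ m : M, ∃ (k : ℕ) (m1 : M1), JE.ro (inf_le_right : U ⊓ V ≤ V) (t' ^ k) • m = j1 m1)
    (hi0 : ∀ m : M0, j0 m = 0 → ∃ k : ℕ, t ^ k • m = 0)
    (hi1 : ∀ m : M1, j1 m = 0 → ∃ k : ℕ, t' ^ k • m = 0) :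
    ∃ 𝓜 : X.Modules, JE.LocFree 𝓜 ⊤ ∧
      ∃ (e0 : Γ(𝓜, U) ≃ₗ[Γ(X, U)] M0) (e1 : Γ(𝓜, V) ≃ₗ[Γ(X, V)] M1)
        (e : Γ(𝓜, U ⊓ V) ≃ₗ[Γ(X, U ⊓ V)] M),
        (∀ s : Γ(𝓜, U), j0 (e0 s) = e (JE.rs 𝓜 inf_le_left s)) ∧
        (∀ s : Γ(𝓜, V), j1 (e1 s) = e (JE.rs 𝓜 inf_le_right s)) := by
  have i0 : Module.Invertible Γ(X, U) (ModuleCat.of Γ(X, U) M0) :=
    inferInstanceAs (Module.Invertible Γ(X, U) M0)
  have i1 : Module.Invertible Γ(X, V) (ModuleCat.of Γ(X, V) M1) :=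
    inferInstanceAs (Module.Invertible Γ(X, V) M1)
  obtain ⟨𝓜, h𝓜, e0, e1, e, h0, h1, h2, h3, h4⟩ := exists_glue_cat hU hV t ht t' ht'
    (ModuleCat.of Γ(X, U) M0) (ModuleCat.of Γ(X, V) M1) (ModuleCat.of Γ(X, U ⊓ V) M)
    j0 j1 hj0 hj1 hs0 hs1 hi0 hi1 hUV
  exact ⟨𝓜, h𝓜, { e0 with map_smul' := h0 }, { e1 with map_smul' := h1 },
    { e with map_smul' := h2 }, h3, h4⟩

end Fermat.Agent.JEb
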