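import Fermat.Agent.JEb.Sh

set_option autoImplicit false

/-! S25, block E2: maps between the sheaves attached to modules on affine opens. -/

universe u

open CategoryTheory Limits AlgebraicGeometry Opposite TopologicalSpace

namespace Fermat.Agent.JEb

section Aff

variable {R S : CommRingCat.{u}} (φ : R ⟶ S) (N : ModuleCat.{u} R) (N' : ModuleCat.{u} S)
  (g : N →+ N') (hg : ∀ (r : R) (n : N), g (r • n) = φ r • g n)

/-- auxiliary: push-forward of `tilde N'` -/
noncomputable def pf : (Spec (.of R)).Modules := (Scheme.Modules.pushforward (Spec.map φ)).obj (tilde N')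

/-- identification of sections -/
noncomputable def pfEquiv (O : (Spec (.of R)).Opens) : Γ(pf φ N', O) ≃+ Γ(tilde N', (Spec.map φ) ⁻¹ᵁ O) := AddEquiv.refl _

theorem pfEquiv_smul (r : R) (s : Γ(pf φ N', ⊤)) :
    pfEquiv φ N' ⊤ (r • s) = φ r • pfEquiv φ N' ⊤ s := by
  rw [Scheme.Modules.smul_Spec_def, Scheme.Modules.smul_Spec_def]
  have h1 : (Spec.map φ).app ⊤ ((Spec (.of R)).presheaf.map (Opens.leTop ⊤).op
      ((Scheme.ΓSpecIso R).inv r)) =
      (Spec S).presheaf.map (Opens.leTop ((Spec.map φ) ⁻¹ᵁ ⊤)).op ((Scheme.ΓSpecIso S).inv (φ r)) := by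
    have h2 := congr($(Scheme.ΓSpecIso_inv_naturality φ) r)
    have e1 : ∀ x, (Spec (.of R)).presheaf.map (Opens.leTop ⊤).op x = x := fun x => rO_self le_rfl x
    have e2 : ∀ x, (Spec S).presheaf.map (Opens.leTop ((Spec.map φ) ⁻¹ᵁ ⊤)).op x = x :=
      fun x => rO_self le_rfl x
    rw [e1, e2]
    exact h2.symm
  exact (congr($h1 • pfEquiv φ N' ⊤ s) : _)

/-- the linear map on global sections -/
noncomputable def globLin : N →ₗ[R] Γ(pf φ N', ⊤) :=
    { toFun := fun n => (pfEquiv φ N' ⊤).symm (toΓ N' _ (g n))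
      map_add' := fun a b => by
        rw [map_add, map_add, map_add]
      map_smul' := fun r n => by
        rw [hg, map_smul]
        exact ((pfEquiv φ N' ⊤).symm_apply_eq.2 (pfEquiv_smul φ N' r _).symm :) }

/-- the map on global sections -/
noncomputable def glob : N ⟶ moduleSpecΓFunctor.obj (pf φ N') :=
  show ModuleCat.of R N ⟶ ModuleCat.of R Γ(pf φ N', ⊤) from ModuleCat.ofHom (globLin φ N N' g hg)

/-- the morphism `tilde N ⟶ φ_* tilde N'` -/
noncomputable def tmap : tilde N ⟶ pf φ N' := (tilde.adjunction.homEquiv _ _).symm (glob φ N N' g hg)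

theorem tmap_top (n : N) : (tmap φ N N' g hg).app ⊤ (toΓ N ⊤ n) =
    (pfEquiv φ N' ⊤).symm (toΓ N' _ (g n)) := by
  have h := tilde.adjunction.homEquiv_unit (f := tmap φ N N' g hg)
  rw [tmap, Equiv.apply_symm_apply] at h
  exact congr($h n).symm

theorem tmap_app (O : (Spec (.of R)).Opens) (n : N) : (tmap φ N N' g hg).app O (toΓ N O n) =
    (pfEquiv φ N' O).symm (toΓ N' _ (g n)) := by
  rw [← toΓ_res N (le_top : O ≤ ⊤) n, app_rM, tmap_top]
  exact toΓ_res N' (le_top : (Spec.map φ) ⁻¹ᵁ O ≤ ⊤) (g n)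

end Aff

variable {X : Scheme.{u}} {U W : X.Opens} (hU : IsAffineOpen U) (hW : IsAffineOpen W) (h : W ≤ U)
  (N : ModuleCat.{u} Γ(X, U)) (N' : ModuleCat.{u} Γ(X, W))
  (g : N →+ N') (hg : ∀ (r : Γ(X, U)) (n : N), g (r • n) = rO h r • g n)

/-- the morphism of sheaves on `X` attached to a semilinear map -/
noncomputable def shMap : sh hU N ⟶ sh hW N' :=
  (Scheme.Modules.pushforward hU.fromSpec).map (tmap (X.presheaf.map (homOfLE h).op) N N' g hg) ≫
    (Scheme.Modules.pushforwardComp (Spec.map (X.presheaf.map (homOfLE h).op)) hU.fromSpec).hom.app _ ≫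
      (Scheme.Modules.pushforwardCongr (hU.map_fromSpec hW (homOfLE h).op)).hom.app _

theorem shMap_app (O : X.Opens) (n : N) :
    (shMap hU hW h N N' g hg).app O (secs hU N O n) = secs hW N' O (g n) := by
  have h1 := tmap_app (X.presheaf.map (homOfLE h).op) N N' g hg (hU.fromSpec ⁻¹ᵁ O) n
  have h2 : (shMap hU hW h N N' g hg).app O (secs hU N O n) =
      (tilde N').presheaf.map (eqToHom (by rw [← hU.map_fromSpec hW (homOfLE h).op]; rfl)).op
        ((pfEquiv _ N' _) ((tmap (X.presheaf.map (homOfLE h).op) N N' g hg).app _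
          (toΓ N (hU.fromSpec ⁻¹ᵁ O) n))) := rfl
  rw [h2, h1]
  exact toΓ_res N' (O' := (Spec.map (X.presheaf.map (homOfLE h).op)) ⁻¹ᵁ hU.fromSpec ⁻¹ᵁ O)
    (O := hW.fromSpec ⁻¹ᵁ O) (le_of_eq (by rw [← hU.map_fromSpec hW (homOfLE h).op]; rfl)) (g n)

end Fermat.Agent.JEb
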