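import Fermat.Agent.JEb.Basis

set_option autoImplicit false

/-! S25, block E2: the sheaf on `X` attached to a module on an affine open. -/

universe u

open CategoryTheory Limits AlgebraicGeometry Opposite TopologicalSpace

namespace Fermat.Agent.JEb

section Aff

variable {R : CommRingCat.{u}} (N : ModuleCat.{u} R)

/-- basic open as an open of the scheme -/
def bO (f : R) : (Spec R).Opens := PrimeSpectrum.basicOpen f

/-- sections of `tilde N` coming from `N` -/
noncomputable def toΓ (O : (Spec R).Opens) : N →ₗ[R] Γ(tilde N, O) := (tilde.toOpen N O).hom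

theorem toΓ_res {O O' : (Spec R).Opens} (h : O ≤ O') (n : N) :
    rM (tilde N) h (toΓ N O' n) = toΓ N O n :=
  congr($(tilde.toOpen_res N O' O (homOfLE h)) n)

theorem toΓ_top_bij : Function.Bijective (toΓ N ⊤) :=
  (ConcreteCategory.isIso_iff_bijective (tilde.toOpen N ⊤)).1 inferInstance

instance toΓ_loc (f : R) : IsLocalizedModule.Away f (toΓ N (bO f)) :=
  inferInstanceAs (IsLocalizedModule.Away f (tilde.toOpen N (PrimeSpectrum.basicOpen f)).hom)

end Aff

variable {X : Scheme.{u}}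

/-- the sheaf on `X` attached to a module on an affine open -/
noncomputable def sh {U : X.Opens} (hU : IsAffineOpen U) (N : ModuleCat.{u} Γ(X, U)) : X.Modules :=
  (Scheme.Modules.pushforward hU.fromSpec).obj (tilde N)

variable {U : X.Opens} (hU : IsAffineOpen U) (N : ModuleCat.{u} Γ(X, U))

theorem pre_mono {O O' : X.Opens} (h : O ≤ O') : hU.fromSpec ⁻¹ᵁ O ≤ hU.fromSpec ⁻¹ᵁ O' :=
  fun _ hx => h hx

/-- sections on `O` as sections of `tilde N` -/
def un (O : X.Opens) (s : Γ(sh hU N, O)) : Γ(tilde N, hU.fromSpec ⁻¹ᵁ O) := s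

theorem app_rO {O O' : X.Opens} (h : O ≤ O') (r : Γ(X, O')) :
    hU.fromSpec.app O (rO h r) = rO (pre_mono hU h) (hU.fromSpec.app O' r) :=
  congr($(hU.fromSpec.naturality (homOfLE h).op) r)

theorem app_self (r : Γ(X, U)) (O : X.Opens) (h : O ≤ U) :
    hU.fromSpec.app O (rO h r) = rO (le_top : hU.fromSpec ⁻¹ᵁ O ≤ ⊤)
      ((Scheme.ΓSpecIso Γ(X, U)).inv r) := by
  rw [app_rO, hU.fromSpec_app_self]
  exact rO_rO (pre_mono hU h) (le_of_eq hU.fromSpec_preimage_self |>.trans le_top) _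

theorem un_smul (O : X.Opens) (h : O ≤ U) (r : Γ(X, U)) (s : Γ(sh hU N, O)) :
    un hU N O (rO h r • s) = r • un hU N O s := by
  rw [Scheme.Modules.smul_Spec_def]
  refine Eq.trans (b := (hU.fromSpec.app O (rO h r)) • un hU N O s) rfl ?_
  rw [app_self hU r O h]
  rfl

/-- the canonical sections -/
noncomputable def secs (O : X.Opens) : N →+ Γ(sh hU N, O) :=
  (toΓ N (hU.fromSpec ⁻¹ᵁ O)).toAddMonoidHom

theorem un_secs (O : X.Opens) (n : N) :
    un hU N O (secs hU N O n) = toΓ N (hU.fromSpec ⁻¹ᵁ O) n := rfl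

theorem secs_res {O O' : X.Opens} (h : O ≤ O') (n : N) :
    rM (sh hU N) h (secs hU N O' n) = secs hU N O n :=
  toΓ_res N (pre_mono hU h) n

theorem secs_smul (O : X.Opens) (h : O ≤ U) (r : Γ(X, U)) (n : N) :
    secs hU N O (r • n) = rO h r • secs hU N O n := by
  have h1 : un hU N O (secs hU N O (r • n)) = un hU N O (rO h r • secs hU N O n) := by
    rw [un_smul, un_secs, un_secs, map_smul]
  exact h1

theorem preim_of_le {O : X.Opens} (h : U ≤ O) : hU.fromSpec ⁻¹ᵁ O = ⊤ := by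
  rw [eq_top_iff, ← hU.fromSpec_preimage_self]
  exact pre_mono hU h

theorem secs_bij {O : X.Opens} (h : U ≤ O) : Function.Bijective (secs hU N O) := by
  have key : ∀ P : (Spec Γ(X, U)).Opens, P = ⊤ → Function.Bijective (toΓ N P) := by
    rintro _ rfl; exact toΓ_top_bij N
  exact key _ (preim_of_le hU h)

/-- restriction to `O ⊓ U` is bijective -/
theorem rM_sh_bij {O O' : X.Opens} (h : O ≤ O') (h' : O' ⊓ U ≤ O) :
    Function.Bijective (rM (sh hU N) h) := by
  have e : hU.fromSpec ⁻¹ᵁ O' = hU.fromSpec ⁻¹ᵁ O := by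
    refine le_antisymm (fun x hx => h' ⟨hx, ?_⟩) (pre_mono hU h)
    have := hU.range_fromSpec
    exact this ▸ ⟨x, rfl⟩
  have : ∀ (P Q : (Spec Γ(X, U)).Opens) (e : P = Q) (h : P ≤ Q),
      Function.Bijective (rM (tilde N) h) := by
    rintro P _ rfl h
    have : ⇑(rM (tilde N) h) = id := by
      ext a; simp
    rw [this]; exact Function.bijective_id
  exact this _ _ e.symm (pre_mono hU h)

/-- localization property over basic opens, in elementary form -/
theorem secs_exists (f : Γ(X, U)) (s : Γ(sh hU N, X.basicOpen f)) :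
    ∃ (n : ℕ) (m : N), rO (X.basicOpen_le f) (f ^ n) • s = secs hU N _ m := by
  have e : hU.fromSpec ⁻¹ᵁ X.basicOpen f = bO f := hU.fromSpec_preimage_basicOpen f
  have key : ∀ (P : (Spec Γ(X, U)).Opens) (e : P = bO f) (s : Γ(tilde N, P)),
      ∃ (n : ℕ) (m : N), (f ^ n) • s = toΓ N P m := by
    rintro _ rfl s
    obtain ⟨⟨m, ⟨_, n, rfl⟩⟩, h⟩ := IsLocalizedModule.surj (.powers f) (toΓ N (bO f)) s
    exact ⟨n, m, h⟩
  obtain ⟨n, m, h⟩ := key _ e (un hU N _ s)
  exact ⟨n, m, ((un_smul hU N _ (X.basicOpen_le f) (f ^ n) s).trans h :)⟩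

theorem secs_eq_zero (f : Γ(X, U)) (m : N) (h : secs hU N (X.basicOpen f) m = 0) :
    ∃ n : ℕ, f ^ n • m = 0 := by
  have e : hU.fromSpec ⁻¹ᵁ X.basicOpen f = bO f := hU.fromSpec_preimage_basicOpen f
  have key : ∀ (P : (Spec Γ(X, U)).Opens) (e : P = bO f),
      toΓ N P m = 0 → ∃ n : ℕ, f ^ n • m = 0 := by
    rintro _ rfl h
    obtain ⟨⟨_, n, rfl⟩, h⟩ := (IsLocalizedModule.eq_zero_iff (.powers f) (toΓ N (bO f))).1 h
    exact ⟨n, h⟩
  exact key _ e h

end Fermat.Agent.JEb
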